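import Fermat.Agent.AndreEFunctions.Borel

/-!
# André's theorem on E-functions

The minimal equation of the Borel transform is regular singular at the origin, so its recurrence
turns into an equation for the E-function whose leading coefficient is a monomial.
-/

set_option autoImplicit false

noncomputable section

namespace FA.AndreEFunctions

open Finset
open scoped Nat Polynomial
open FA.SiegelShidlovskii (IsEFunction)
open FA.GFunctions (IsGFunction applyOp IsMinimalEquation)

theorem opApply_sum_monomial {σ : ℚ[X] →+* PowerSeries ℚ} (N : ℕ) (c : ℕ → ℚ[X])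
    (y : PowerSeries ℚ) :
    opApply σ (∑ j ∈ range N, Polynomial.monomial j (c j)) y =
      ∑ j ∈ range N, σ (c j) * (PowerSeries.derivative ℚ)^[j] y := by
  rw [opApply_sum]
  exact Finset.sum_congr rfl fun j _ => opApply_monomial _ _

/-- An equation over `ℚ` gives a minimal one over `ℤ`. -/
theorem exists_minimal_of_operator {g : PowerSeries ℚ} {G : ℚ[X][X]} (hG : G ≠ 0)
    (hGg : opApply atZero G g = 0) : ∃ (n : ℕ) (a : ℕ → ℤ[X]), IsMinimalEquation a n g := by
  classical
  choose d F hd hF using fun j => FA.KroneckerHonda.exists_integral_multiple (G.coeff j)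
  obtain ⟨D, hD⟩ : ∃ D : ℤ, D = ∏ i ∈ range (G.natDegree + 1), d i := ⟨_, rfl⟩
  obtain ⟨a, ha⟩ : ∃ a : ℕ → ℤ[X], a = fun j =>
      Polynomial.C (∏ i ∈ (range (G.natDegree + 1)).erase j, d i) * F j := ⟨_, rfl⟩
  have hmap : ∀ j ∈ range (G.natDegree + 1),
      (a j).map (Int.castRingHom ℚ) = Polynomial.C (D : ℚ) * G.coeff j := fun j hj => by
    rw [ha, hD, Polynomial.map_mul, Polynomial.map_C, hF, ← mul_assoc, ← map_mul, eq_intCast,
      ← Int.cast_mul, Finset.prod_erase_mul _ _ hj]
  have h0 : applyOp a (G.natDegree + 1) g = 0 := by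
    rw [← mul_zero (PowerSeries.C (D : ℚ)), ← hGg, opApply_eq_sum_range G (Nat.lt_succ_self _),
      applyOp, Finset.mul_sum]
    refine Finset.sum_congr rfl fun j hj => ?_
    rw [hmap j hj, Polynomial.coe_mul, Polynomial.coe_C, atZero_apply, mul_assoc]
  suffices hne : a G.natDegree ≠ 0 by
    obtain ⟨m, b, -, hb⟩ := FA.GFunctions.exists_minimalEquation
      ⟨G.natDegree, le_rfl, hne⟩ h0
    exact ⟨m, b, hb⟩
  intro h
  have h1 := hmap G.natDegree (mem_range.2 (Nat.lt_succ_self _))
  rw [h, Polynomial.map_zero, eq_comm, mul_eq_zero, Polynomial.C_eq_zero, Int.cast_eq_zero,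
    hD, Finset.prod_eq_zero_iff, Polynomial.coeff_natDegree, Polynomial.leadingCoeff_eq_zero] at h1
  exact h1.elim (fun ⟨i, _, hi⟩ => hd i hi) hG

/-- **André's theorem.** An E-function with a linear differential equation is killed by an operator
whose leading coefficient is `z X ^ v`, `z ≠ 0`. -/
theorem exists_andre_operator {f : PowerSeries ℚ} (hE : IsEFunction f)
    (hD : ∃ e : ℚ[X][X], e ≠ 0 ∧ opApply atZero e f = 0) :
    ∃ (M : ℚ[X][X]) (N v : ℕ) (z : ℚ), z ≠ 0 ∧ M.natDegree ≤ N ∧
      M.coeff N = Polynomial.C z * Polynomial.X ^ v ∧ opApply atZero M f = 0 := by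
  classical
  obtain ⟨e₀, he₀, hef⟩ := hD
  obtain ⟨G, hG, hGg⟩ := exists_operator_borel he₀ hef
  obtain ⟨n, a, hmin⟩ := exists_minimal_of_operator hG hGg
  have hgn := hmin.nilpotentEnough (isGFunction_borel hE)
  have hinj := (Int.castRingHom ℂ).injective_int
  have hmapn : (a n).map (Int.castRingHom ℂ) ≠ 0 :=
    (Polynomial.map_ne_zero_iff hinj).2 hmin.1
  obtain ⟨v, hv⟩ : ∃ v, v = ((a n).map (Int.castRingHom ℂ)).rootMultiplicity 0 := ⟨_, rfl⟩
  have hv' : v = ((a n).map (Int.castRingHom ℂ)).natTrailingDegree := by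
    rw [hv, Polynomial.rootMultiplicity_eq_natTrailingDegree']
  have hlow : ∀ l ≤ n, ∀ e, (a l).coeff e ≠ 0 → v + l ≤ e + n := by
    intro l hl e he
    have hal : a l ≠ 0 := fun h => he (by rw [h, Polynomial.coeff_zero])
    have h1 := FA.GlobalNilpotence.rootMultiplicity_le hgn hmin.1 0 hl hal
    rw [← hv, Polynomial.rootMultiplicity_eq_natTrailingDegree'] at h1
    have h2 : ((a l).map (Int.castRingHom ℂ)).natTrailingDegree ≤ e :=
      Polynomial.natTrailingDegree_le_of_ne_zero (by simpa using he)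
    omega
  have hav : (a n).coeff v ≠ 0 := fun h => by
    have h1 := Polynomial.trailingCoeff_nonzero_iff_nonzero.2 hmapn
    rw [Polynomial.trailingCoeff, ← hv', Polynomial.coeff_map, h, map_zero] at h1
    exact h1 rfl
  obtain ⟨E, hE'⟩ : ∃ E, E = (range (n + 1)).sup fun l => (a l).natDegree := ⟨_, rfl⟩
  have hdeg : ∀ l ∈ range (n + 1), (a l).natDegree ≤ E := fun l hl =>
    hE' ▸ Finset.le_sup (f := fun l => (a l).natDegree) hl
  obtain ⟨s, hs⟩ : ∃ s, s = E + n := ⟨_, rfl⟩
  obtain ⟨M, hM⟩ : ∃ M : ℚ[X][X], M = ∑ l ∈ range (n + 1), ∑ e ∈ range (E + 1),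
      Polynomial.C (Polynomial.C ((a l).coeff e : ℚ)) *
        opD^[s - (e + n - l - v)] (Polynomial.monomial l (Polynomial.X ^ l)) := ⟨_, rfl⟩
  have hspec := fun l k => iterate_opD_spec
    (Polynomial.natDegree_monomial_le (Polynomial.X ^ l : ℚ[X]) (m := l)) k
  refine ⟨M, n + s, n, ((a n).coeff v : ℚ), Int.cast_ne_zero.2 hav, ?_, ?_, ?_⟩
  · rw [hM]
    refine Polynomial.natDegree_sum_le_of_forall_le _ _ fun l hl =>
      Polynomial.natDegree_sum_le_of_forall_le _ _ fun e _ =>
        (Polynomial.natDegree_C_mul_le _ _).trans ((hspec l _).1.trans ?_)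
    rw [mem_range] at hl
    omega
  · rw [hM, Polynomial.finsetSum_coeff, Finset.sum_eq_single n (fun l hl hne => ?_)
      (fun h => absurd (mem_range.2 (Nat.lt_succ_self n)) h), Polynomial.finsetSum_coeff,
      Finset.sum_eq_single v (fun e he hne => ?_) (fun h => ?_)]
    · rw [Polynomial.coeff_C_mul, show s - (v + n - n - v) = s by omega, (hspec n s).2,
        Polynomial.coeff_monomial_same]
    · rw [mem_range] at he
      rcases Nat.lt_or_ge e v with hev | hev
      · rw [show (a n).coeff e = 0 from by_contra fun h => by have := hlow n le_rfl e h; omega]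
        simp
      · rw [Polynomial.coeff_C_mul, Polynomial.coeff_eq_zero_of_natDegree_lt
          (lt_of_le_of_lt (hspec n _).1 (by omega)), mul_zero]
    · exfalso
      have h1 := Polynomial.le_natDegree_of_ne_zero hav
      have h2 := hdeg n (mem_range.2 (Nat.lt_succ_self n))
      exact h (mem_range.2 (by omega))
    · rw [mem_range] at hl
      rw [Polynomial.finsetSum_coeff]
      refine Finset.sum_eq_zero fun e he => ?_
      rw [Polynomial.coeff_C_mul, Polynomial.coeff_eq_zero_of_natDegree_lt
        (lt_of_le_of_lt (hspec l _).1 (by omega)), mul_zero]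
  -- the recurrence of `g` gives the equation of `f`
  ext k
  rw [map_zero]
  refine (mul_eq_zero.1 ?_).resolve_left
    (Nat.cast_ne_zero (R := ℚ).2 (Nat.factorial_ne_zero k))
  have heq := congrArg (PowerSeries.coeff (k + s + v - n)) hmin.2.1
  rw [applyOp, map_sum, map_zero] at heq
  rw [← heq, hM, opApply_sum, map_sum, Finset.mul_sum]
  refine Finset.sum_congr rfl fun l hl => ?_
  conv_rhs => rw [Polynomial.as_sum_range_C_mul_X_pow' ((a l).map (Int.castRingHom ℚ))
    (n := E + 1) (by
      rw [Polynomial.natDegree_map_eq_of_injective (Int.castRingHom ℚ).injective_int]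
      exact Nat.lt_succ_of_le (hdeg l hl))]
  rw [opApply_sum, map_sum, Finset.mul_sum, ← Polynomial.coeToPowerSeries.ringHom_apply, map_sum,
    Finset.sum_mul, map_sum]
  refine Finset.sum_congr rfl fun e he => ?_
  rw [mem_range] at hl he
  rw [Polynomial.coeToPowerSeries.ringHom_apply, Polynomial.coeff_map, eq_intCast,
    Polynomial.coe_mul, Polynomial.coe_C, Polynomial.coe_pow, Polynomial.coe_X, mul_assoc,
    PowerSeries.coeff_C_mul, opApply_C_mul, atZero_apply, Polynomial.coe_C,
    PowerSeries.coeff_C_mul, mul_left_comm]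
  by_cases hc : (a l).coeff e = 0
  · simp [hc]
  have h1 := hlow l (Nat.le_of_lt_succ hl) e hc
  congr 1
  rw [coeff_X_pow_mul_iterate, if_pos (by omega), opApply_iterate_opD differential_atZero,
    factorial_mul_coeff_iterate, opApply_monomial, atZero_apply, Polynomial.coe_pow,
    Polynomial.coe_X, factorial_mul_coeff,
    show k + s + v - n - e + l = k + (s - (e + n - l - v)) by omega]
  rcases Nat.lt_or_ge (k + (s - (e + n - l - v))) l with hlt | hge
  · rw [Nat.descFactorial_eq_zero_iff_lt.2 hlt, Nat.cast_zero, zero_mul, zero_mul]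
  · rw [Nat.sub_add_cancel hge]

end FA.AndreEFunctions
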