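import Mathlib.RingTheory.PowerSeries.Derivative
import Mathlib.Algebra.Polynomial.Derivative
import Mathlib.Algebra.Polynomial.BigOperators
import Mathlib.Algebra.Polynomial.Taylor

/-!
# Differential operators with polynomial coefficients

An operator is an element of `ℚ[X][Y]`, `Y` standing for `d / dX` and written on the right; it acts
on power series through a ring map `σ` of `ℚ[X]` commuting with derivation.
-/

set_option autoImplicit false

noncomputable section

namespace FA.AndreEFunctions

open Finset
open scoped Polynomial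

/-- The embedding of the polynomials in the series at the origin. -/
def atZero : ℚ[X] →+* PowerSeries ℚ :=
  Polynomial.coeToPowerSeries.ringHom

/-- The expansion of polynomials at `α`. -/
def atPoint (α : ℚ) : ℚ[X] →+* PowerSeries ℚ :=
  atZero.comp (Polynomial.compRingHom (Polynomial.X + Polynomial.C α))

/-- A ring map commuting with derivation. -/
def Differential' (σ : ℚ[X] →+* PowerSeries ℚ) : Prop :=
  ∀ p : ℚ[X], PowerSeries.derivative ℚ (σ p) = σ (Polynomial.derivative p)

theorem atZero_apply (p : ℚ[X]) : atZero p = (p : PowerSeries ℚ) :=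
  rfl

theorem differential_atZero : Differential' atZero := fun p =>
  PowerSeries.derivative_coe p

theorem differential_atPoint (α : ℚ) : Differential' (atPoint α) := fun p => by
  simp [atPoint, atZero_apply, PowerSeries.derivative_coe, Polynomial.derivative_comp]

theorem constantCoeff_atPoint (α : ℚ) (p : ℚ[X]) :
    PowerSeries.constantCoeff (atPoint α p) = p.eval α := by
  simp [atPoint, atZero_apply, Polynomial.coeff_zero_eq_eval_zero, Polynomial.eval_comp]

theorem atPoint_ne_zero (α : ℚ) {p : ℚ[X]} (hp : p ≠ 0) : atPoint α p ≠ 0 := by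
  simpa [atPoint, atZero_apply, Polynomial.comp_eq_zero_iff] using hp

/-- The action of an operator. -/
def opApply (σ : ℚ[X] →+* PowerSeries ℚ) (e : ℚ[X][X]) (y : PowerSeries ℚ) : PowerSeries ℚ :=
  e.sum fun j c => σ c * (PowerSeries.derivative ℚ)^[j] y

variable {σ : ℚ[X] →+* PowerSeries ℚ} {y : PowerSeries ℚ}

@[simp] theorem opApply_monomial (j : ℕ) (c : ℚ[X]) :
    opApply σ (Polynomial.monomial j c) y = σ c * (PowerSeries.derivative ℚ)^[j] y := by
  rw [opApply, Polynomial.sum_monomial_index]
  simp

theorem opApply_add (e e' : ℚ[X][X]) :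
    opApply σ (e + e') y = opApply σ e y + opApply σ e' y := by
  rw [opApply, opApply, opApply, Polynomial.sum_add_index]
  · simp
  · intro j c c'
    rw [map_add, add_mul]

@[simp] theorem opApply_zero : opApply σ 0 y = 0 :=
  Polynomial.sum_zero_index _

theorem opApply_C_mul (p : ℚ[X]) (e : ℚ[X][X]) :
    opApply σ (Polynomial.C p * e) y = σ p * opApply σ e y := by
  induction e using Polynomial.induction_on' with
  | add a b ha hb => rw [mul_add, opApply_add, opApply_add, ha, hb, mul_add]
  | monomial j c => rw [Polynomial.C_mul_monomial, opApply_monomial, opApply_monomial, map_mul,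
      mul_assoc]

theorem opApply_sub (e e' : ℚ[X][X]) :
    opApply σ (e - e') y = opApply σ e y - opApply σ e' y := by
  have h := opApply_add (σ := σ) (y := y) (e - e') e'
  rw [sub_add_cancel] at h
  rw [h, add_sub_cancel_right]

theorem opApply_sum {ι : Type*} (s : Finset ι) (e : ι → ℚ[X][X]) :
    opApply σ (∑ i ∈ s, e i) y = ∑ i ∈ s, opApply σ (e i) y := by
  classical
  refine Finset.induction_on s (by simp) fun a s ha ih => ?_
  rw [Finset.sum_insert ha, Finset.sum_insert ha, opApply_add, ih]

theorem opApply_eq_sum_range (e : ℚ[X][X]) {N : ℕ} (hN : e.natDegree < N) :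
    opApply σ e y = ∑ j ∈ range N, σ (e.coeff j) * (PowerSeries.derivative ℚ)^[j] y :=
  Polynomial.sum_over_range' e (by simp) N hN

/-- The operator followed by derivation. -/
def opD (e : ℚ[X][X]) : ℚ[X][X] :=
  (e.sum fun j c => Polynomial.monomial j (Polynomial.derivative c)) + Polynomial.X * e

theorem coeff_sum_derivative (e : ℚ[X][X]) (j : ℕ) :
    (e.sum fun j c => Polynomial.monomial j (Polynomial.derivative c)).coeff j =
      Polynomial.derivative (e.coeff j) := by
  classical
  simp only [Polynomial.sum_def, Polynomial.finsetSum_coeff, Polynomial.coeff_monomial,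
    Finset.sum_ite_eq', Polynomial.mem_support_iff]
  split_ifs with h
  · rfl
  · rw [not_not.1 h, map_zero]

theorem opD_coeff_succ (e : ℚ[X][X]) (j : ℕ) :
    (opD e).coeff (j + 1) = Polynomial.derivative (e.coeff (j + 1)) + e.coeff j := by
  rw [opD, Polynomial.coeff_add, coeff_sum_derivative, Polynomial.coeff_X_mul]

theorem opD_natDegree_le {e : ℚ[X][X]} {N : ℕ} (h : e.natDegree ≤ N) :
    (opD e).natDegree ≤ N + 1 := by
  rw [Polynomial.natDegree_le_iff_coeff_eq_zero]
  intro M hM
  obtain ⟨j, rfl⟩ : ∃ j, M = j + 1 := ⟨M - 1, by omega⟩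
  rw [opD_coeff_succ, Polynomial.coeff_eq_zero_of_natDegree_lt (by omega),
    Polynomial.coeff_eq_zero_of_natDegree_lt (by omega), map_zero, add_zero]

theorem opApply_opD (hσ : Differential' σ) (e : ℚ[X][X]) :
    opApply σ (opD e) y = PowerSeries.derivative ℚ (opApply σ e y) := by
  induction e using Polynomial.induction_on' with
  | add a b ha hb =>
    rw [opApply_add, map_add, ← ha, ← hb, ← opApply_add]
    congr 1
    rw [opD, opD, opD, Polynomial.sum_add_index, mul_add]
    · abel
    · simp
    · simp
  | monomial j c =>
    rw [opD, Polynomial.sum_monomial_index _ _ (by simp), Polynomial.X_mul_monomial, opApply_add,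
      opApply_monomial, opApply_monomial, opApply_monomial, Derivation.leibniz, smul_eq_mul,
      smul_eq_mul, hσ, ← Function.iterate_succ_apply' (PowerSeries.derivative ℚ)]
    ring

theorem iterate_opD_spec {e : ℚ[X][X]} {N : ℕ} (h : e.natDegree ≤ N) : ∀ k : ℕ,
    (opD^[k] e).natDegree ≤ N + k ∧ (opD^[k] e).coeff (N + k) = e.coeff N
  | 0 => ⟨h, rfl⟩
  | k + 1 => by
    obtain ⟨h1, h2⟩ := iterate_opD_spec h k
    rw [Function.iterate_succ_apply']
    refine ⟨opD_natDegree_le h1, ?_⟩
    rw [← Nat.add_assoc, opD_coeff_succ, h2,
      Polynomial.coeff_eq_zero_of_natDegree_lt (by omega), map_zero, zero_add]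

theorem opApply_iterate_opD (hσ : Differential' σ) (e : ℚ[X][X]) (k : ℕ) :
    opApply σ (opD^[k] e) y = (PowerSeries.derivative ℚ)^[k] (opApply σ e y) := by
  induction k with
  | zero => rfl
  | succ k ih => rw [Function.iterate_succ_apply', Function.iterate_succ_apply', opApply_opD hσ, ih]

theorem derivative_iterate_zero (k : ℕ) :
    (PowerSeries.derivative ℚ)^[k] (0 : PowerSeries ℚ) = 0 :=
  Function.iterate_fixed (map_zero _) k

/-- **Right division.** If `L` has the least order among the operators killing `f`, then the
solutions of `L` are killed by all operators killing `f`. -/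
theorem opApply_eq_zero_of_minimal (hσ : Differential' σ) {f : PowerSeries ℚ} {L : ℚ[X][X]}
    {n : ℕ} (hLn : L.natDegree ≤ n) (hℓ : σ (L.coeff n) ≠ 0) (hLf : opApply atZero L f = 0)
    (hmin : ∀ e : ℚ[X][X], (∀ j, n ≤ j → e.coeff j = 0) → opApply atZero e f = 0 → e = 0)
    (hy : opApply σ L y = 0) {e : ℚ[X][X]} (he : opApply atZero e f = 0) :
    opApply σ e y = 0 := by
  suffices H : ∀ N, ∀ e : ℚ[X][X], (∀ j, N ≤ j → e.coeff j = 0) → opApply atZero e f = 0 →
      opApply σ e y = 0 from
    H (e.natDegree + 1) e (fun j hj => Polynomial.coeff_eq_zero_of_natDegree_lt (by omega)) he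
  intro N
  induction N with
  | zero =>
    intro e he0 _
    rw [show e = 0 from Polynomial.ext fun j => by
        rw [he0 j (Nat.zero_le j), Polynomial.coeff_zero],
      opApply_zero]
  | succ N ih =>
    intro e he0 hef
    rcases Nat.lt_or_ge N n with hN | hN
    · rw [hmin e (fun j hj => he0 j (by omega)) hef, opApply_zero]
    obtain ⟨hdeg, hco⟩ := iterate_opD_spec hLn (N - n)
    rw [Nat.add_sub_cancel' hN] at hdeg hco
    have h := ih (Polynomial.C (L.coeff n) * e - Polynomial.C (e.coeff N) * opD^[N - n] L)
      (fun j hj => by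
        rw [Polynomial.coeff_sub, Polynomial.coeff_C_mul, Polynomial.coeff_C_mul]
        rcases eq_or_lt_of_le hj with rfl | hlt
        · rw [hco, mul_comm, sub_self]
        · rw [he0 j hlt,
            Polynomial.coeff_eq_zero_of_natDegree_lt (lt_of_le_of_lt hdeg hlt)]
          ring)
      (by rw [opApply_sub, opApply_C_mul, opApply_C_mul, hef,
        opApply_iterate_opD differential_atZero, hLf, derivative_iterate_zero]; ring)
    rw [opApply_sub, opApply_C_mul, opApply_C_mul, opApply_iterate_opD hσ, hy,
      derivative_iterate_zero, mul_zero, sub_zero, mul_eq_zero] at h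
    exact h.resolve_left hℓ

/-- Operators on a multiple `u y`, `u' = -1`. -/
theorem opApply_linear_mul (hσ : Differential' σ) {u : ℚ[X]}
    (hu : Polynomial.derivative u = -1) (e : ℚ[X][X]) :
    opApply σ e (σ u * y) =
      opApply σ (Polynomial.C u * e - Polynomial.derivative e) y := by
  have key : ∀ j : ℕ, (PowerSeries.derivative ℚ)^[j] (σ u * y) =
      σ u * (PowerSeries.derivative ℚ)^[j] y - (j : PowerSeries ℚ) *
        (PowerSeries.derivative ℚ)^[j - 1] y := by
    intro j
    induction j with
    | zero => simp
    | succ j ih =>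
      rw [Function.iterate_succ_apply', ih, map_sub, Derivation.leibniz, smul_eq_mul, smul_eq_mul,
        hσ, hu, map_neg, map_one, Derivation.leibniz, smul_eq_mul, smul_eq_mul,
        Derivation.map_natCast, Nat.add_sub_cancel, ← Function.iterate_succ_apply' (f :=
          (PowerSeries.derivative ℚ : PowerSeries ℚ → PowerSeries ℚ))]
      rcases j with _ | j
      · simp [sub_eq_add_neg]
      · rw [Nat.add_sub_cancel, ← Function.iterate_succ_apply' (f :=
          (PowerSeries.derivative ℚ : PowerSeries ℚ → PowerSeries ℚ))]
        push_cast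
        ring
  induction e using Polynomial.induction_on' with
  | add a b ha hb =>
    rw [opApply_add, ha, hb, ← opApply_add, mul_add, map_add]
    congr 1
    abel
  | monomial j c =>
    rw [opApply_monomial, key, Polynomial.C_mul_monomial, Polynomial.derivative_monomial,
      opApply_sub, opApply_monomial, opApply_monomial, map_mul, map_mul, map_natCast]
    ring

end FA.AndreEFunctions
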