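import Mathlib.RingTheory.Polynomial.Pochhammer
import Fermat.Agent.AndreEFunctions.Operators
import Fermat.Agent.SiegelShidlovskii.Auxiliary
import Fermat.Agent.GFunctions.Main

/-!
# The Borel transform

`g = ∑ k! b k X ^ k` is a G-function when `f = ∑ b k X ^ k` is an E-function, and satisfies a linear
differential equation when `f` does.
-/

set_option autoImplicit false

noncomputable section

namespace FA.AndreEFunctions

open Finset
open scoped Nat Polynomial
open FA.SiegelShidlovskii (IsEFunction)
open FA.GFunctions (IsGFunction)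

/-- The Borel transform. -/
def borel (f : PowerSeries ℚ) : PowerSeries ℚ :=
  PowerSeries.mk fun k => (k ! : ℚ) * PowerSeries.coeff k f

theorem coeff_borel (f : PowerSeries ℚ) (k : ℕ) :
    PowerSeries.coeff k (borel f) = (k ! : ℚ) * PowerSeries.coeff k f :=
  PowerSeries.coeff_mk _ _

theorem isGFunction_borel {f : PowerSeries ℚ} (hf : IsEFunction f) : IsGFunction (borel f) := by
  obtain ⟨C, hC, hd⟩ := hf
  exact ⟨C, fun k => by rw [coeff_borel]; exact hC k, fun N => by
    obtain ⟨d, h0, hle, hz⟩ := hd N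
    exact ⟨d, h0, hle, fun k hk => by rw [coeff_borel]; exact hz k hk⟩⟩

theorem coeff_X_pow_mul_iterate (y : PowerSeries ℚ) (e j m : ℕ) :
    PowerSeries.coeff m (PowerSeries.X ^ e * (PowerSeries.derivative ℚ)^[j] y) =
      if e ≤ m then ((m - e + j).descFactorial j : ℚ) * PowerSeries.coeff (m - e + j) y
      else 0 := by
  rw [PowerSeries.coeff_X_pow_mul']
  split_ifs with h
  · rw [PowerSeries.coeff_iterate_derivative, Nat.add_descFactorial_eq_ascFactorial]
  · rfl

/-- Multiplication by `X` and derivation on the side of the transform. -/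
theorem factorial_mul_coeff (f : PowerSeries ℚ) (k i j : ℕ) :
    (k ! : ℚ) * PowerSeries.coeff k (PowerSeries.X ^ i * (PowerSeries.derivative ℚ)^[j] f) =
      (k.descFactorial i : ℚ) * PowerSeries.coeff (k - i + j) (borel f) := by
  rw [coeff_X_pow_mul_iterate]
  split_ifs with h
  · rw [coeff_borel, ← mul_assoc, ← mul_assoc]
    congr 1
    have h1 : k ! * (k - i + j).descFactorial j = k.descFactorial i * (k - i + j)! := by
      rw [← Nat.factorial_mul_descFactorial h, Nat.add_descFactorial_eq_ascFactorial,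
        ← Nat.factorial_mul_ascFactorial (k - i) j]
      ring
    exact_mod_cast h1
  · rw [Nat.descFactorial_eq_zero_iff_lt.2 (by omega), Nat.cast_zero, mul_zero, zero_mul]

theorem factorial_mul_coeff_iterate (h : PowerSeries ℚ) (k j : ℕ) :
    (k ! : ℚ) * PowerSeries.coeff k ((PowerSeries.derivative ℚ)^[j] h) =
      ((k + j)! : ℚ) * PowerSeries.coeff (k + j) h := by
  rw [PowerSeries.coeff_iterate_derivative, ← Nat.factorial_mul_ascFactorial]
  push_cast
  ring

theorem coeff_opApply (e : ℚ[X][X]) (y : PowerSeries ℚ) (k : ℕ) {J I : ℕ} (hJ : e.natDegree < J)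
    (hI : ∀ j, (e.coeff j).natDegree < I) :
    PowerSeries.coeff k (opApply atZero e y) = ∑ j ∈ range J, ∑ i ∈ range I,
      (e.coeff j).coeff i *
        PowerSeries.coeff k (PowerSeries.X ^ i * (PowerSeries.derivative ℚ)^[j] y) := by
  rw [opApply_eq_sum_range e hJ, map_sum]
  refine Finset.sum_congr rfl fun j _ => ?_
  conv_lhs => rw [Polynomial.as_sum_range_C_mul_X_pow' (e.coeff j) (hI j)]
  rw [map_sum, Finset.sum_mul, map_sum]
  refine Finset.sum_congr rfl fun i _ => ?_
  rw [atZero_apply, Polynomial.coe_mul, Polynomial.coe_C, Polynomial.coe_pow, Polynomial.coe_X,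
    mul_assoc, PowerSeries.coeff_C_mul]

/-- The operator `(X d / dX) ^ l`. -/
def thetaPow : ℕ → ℚ[X][X]
  | 0 => 1
  | l + 1 => Polynomial.C Polynomial.X * opD (thetaPow l)

theorem thetaPow_spec : ∀ l : ℕ,
    (thetaPow l).natDegree ≤ l ∧ (thetaPow l).coeff l = Polynomial.X ^ l ∧
      ∀ (y : PowerSeries ℚ) (k : ℕ), PowerSeries.coeff k (opApply atZero (thetaPow l) y) =
        (k : ℚ) ^ l * PowerSeries.coeff k y
  | 0 => by
    refine ⟨by simp [thetaPow], by simp [thetaPow], fun y k => ?_⟩
    rw [thetaPow, ← Polynomial.monomial_zero_one, opApply_monomial]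
    simp
  | l + 1 => by
    obtain ⟨h1, h2, h3⟩ := thetaPow_spec l
    refine ⟨?_, ?_, fun y k => ?_⟩
    · rw [thetaPow]
      exact (Polynomial.natDegree_C_mul_le _ _).trans (opD_natDegree_le h1)
    · rw [thetaPow, Polynomial.coeff_C_mul, opD_coeff_succ, h2,
        Polynomial.coeff_eq_zero_of_natDegree_lt (by omega), map_zero, zero_add, pow_succ']
    · rw [thetaPow, opApply_C_mul, opApply_opD differential_atZero, atZero_apply,
        Polynomial.coe_X]
      rcases k with _ | k
      · simp
      · rw [PowerSeries.coeff_succ_X_mul, PowerSeries.coeff_derivative, h3, pow_succ]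
        push_cast
        ring

/-- The operator `R (X d / dX)`, `R` of degree at most `L`. -/
def thetaOp (R : ℚ[X]) (L : ℕ) : ℚ[X][X] :=
  ∑ l ∈ range (L + 1), Polynomial.C (Polynomial.C (R.coeff l)) * thetaPow l

theorem thetaOp_spec {R : ℚ[X]} {L : ℕ} (hR : R.natDegree ≤ L) :
    (thetaOp R L).natDegree ≤ L ∧
      (thetaOp R L).coeff L = Polynomial.C (R.coeff L) * Polynomial.X ^ L ∧
      ∀ (y : PowerSeries ℚ) (k : ℕ), PowerSeries.coeff k (opApply atZero (thetaOp R L) y) =
        R.eval (k : ℚ) * PowerSeries.coeff k y := by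
  refine ⟨Polynomial.natDegree_sum_le_of_forall_le _ _ fun l hl =>
    (Polynomial.natDegree_C_mul_le _ _).trans ((thetaPow_spec l).1.trans
      (Nat.le_of_lt_succ (mem_range.1 hl))), ?_, fun y k => ?_⟩
  · rw [thetaOp, Polynomial.finsetSum_coeff, Finset.sum_eq_single L (fun l hl hne => ?_)
      (fun h => absurd (mem_range.2 (Nat.lt_succ_self L)) h), Polynomial.coeff_C_mul,
      (thetaPow_spec L).2.1]
    rw [mem_range] at hl
    rw [Polynomial.coeff_C_mul, Polynomial.coeff_eq_zero_of_natDegree_lt
      (lt_of_le_of_lt (thetaPow_spec l).1 (by omega)), mul_zero]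
  · rw [thetaOp, opApply_sum, map_sum,
      Polynomial.eval_eq_sum_range' (Nat.lt_succ_of_le hR), Finset.sum_mul]
    refine Finset.sum_congr rfl fun l _ => ?_
    rw [opApply_C_mul, atZero_apply, Polynomial.coe_C, PowerSeries.coeff_C_mul,
      (thetaPow_spec l).2.2]
    ring

/-- **The transform of a series with a differential equation has one.** -/
theorem exists_operator_borel {f : PowerSeries ℚ} {e : ℚ[X][X]} (he : e ≠ 0)
    (hef : opApply atZero e f = 0) :
    ∃ G : ℚ[X][X], G ≠ 0 ∧ opApply atZero G (borel f) = 0 := by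
  classical
  obtain ⟨j₀, hj₀, hmax⟩ := Finset.exists_max_image e.support
    (fun j => (e.coeff j).natDegree) (Polynomial.support_nonempty.2 he)
  obtain ⟨L, hL⟩ : ∃ L, L = (e.coeff j₀).natDegree := ⟨_, rfl⟩
  obtain ⟨J, hJ⟩ : ∃ J, J = e.natDegree := ⟨_, rfl⟩
  have hdeg : ∀ j, (e.coeff j).natDegree ≤ L := fun j => by
    by_cases hj : j ∈ e.support
    · exact hL ▸ hmax j hj
    · rw [Polynomial.notMem_support_iff.1 hj, Polynomial.natDegree_zero]
      exact Nat.zero_le _
  obtain ⟨R, hR⟩ : ∃ R : ℕ → ℕ → ℚ[X], R = fun i j : ℕ =>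
      (descPochhammer ℚ i).comp (Polynomial.X + Polynomial.C ((i : ℚ) - j)) := ⟨_, rfl⟩
  have hRd : ∀ i j, (R i j).natDegree = i := fun i j => by
    rw [hR, Polynomial.natDegree_comp, descPochhammer_natDegree, Polynomial.natDegree_X_add_C,
      mul_one]
  obtain ⟨G₀, hG₀⟩ : ∃ G₀ : ℚ[X][X], G₀ = ∑ j ∈ range (J + 1), ∑ i ∈ range (L + 1),
      Polynomial.C (Polynomial.C ((e.coeff j).coeff i) * Polynomial.X ^ (i + (J - j))) *
        thetaOp (R i j) L := ⟨_, rfl⟩
  have hspec : ∀ i ∈ range (L + 1), ∀ j, _ := fun i hi j =>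
    thetaOp_spec ((hRd i j).le.trans (Nat.le_of_lt_succ (mem_range.1 hi)))
  have hdeg₀ : G₀.natDegree ≤ L := hG₀ ▸ Polynomial.natDegree_sum_le_of_forall_le _ _ fun j _ =>
    Polynomial.natDegree_sum_le_of_forall_le _ _ fun i hi =>
      (Polynomial.natDegree_C_mul_le _ _).trans (hspec i hi j).1
  have hzero : ∀ k, PowerSeries.coeff (k + J) (opApply atZero G₀ (borel f)) = 0 := by
    intro k
    have h := congrArg (fun g => (k ! : ℚ) * PowerSeries.coeff k g) hef
    simp only [map_zero, mul_zero, coeff_opApply e f k (J := J + 1) (I := L + 1)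
      (by omega) (fun j => Nat.lt_succ_of_le (hdeg j)), Finset.mul_sum] at h
    rw [← h, hG₀, opApply_sum, map_sum]
    refine Finset.sum_congr rfl fun j hj => ?_
    rw [opApply_sum, map_sum]
    refine Finset.sum_congr rfl fun i hi => ?_
    rw [mem_range] at hj
    rw [mul_left_comm, factorial_mul_coeff, opApply_C_mul, atZero_apply, Polynomial.coe_mul,
      Polynomial.coe_C, Polynomial.coe_pow, Polynomial.coe_X, mul_assoc, PowerSeries.coeff_C_mul,
      PowerSeries.coeff_X_pow_mul']
    congr 1
    split_ifs with hs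
    · rw [(hspec i hi j).2.2, hR]
      simp only [Polynomial.eval_comp, Polynomial.eval_add, Polynomial.eval_X, Polynomial.eval_C]
      have e1 : ((k + J - (i + (J - j)) : ℕ) : ℚ) + ((i : ℚ) - j) = (k : ℚ) := by
        have e2 : k + J - (i + (J - j)) + i = k + j := by omega
        have e3 : ((k + J - (i + (J - j)) + i : ℕ) : ℚ) = ((k + j : ℕ) : ℚ) := by rw [e2]
        push_cast at e3
        linarith
      rw [e1, descPochhammer_eval_eq_descFactorial]
      rcases Nat.lt_or_ge k i with hki | hki
      · rw [Nat.descFactorial_eq_zero_iff_lt.2 hki, Nat.cast_zero, zero_mul, zero_mul]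
      · rw [show k + J - (i + (J - j)) = k - i + j by omega]
    · rw [Nat.descFactorial_eq_zero_iff_lt.2 (by omega), Nat.cast_zero, zero_mul]
  refine ⟨opD^[J] G₀, fun h0 => ?_, ?_⟩
  · have h1 := (iterate_opD_spec hdeg₀ J).2
    rw [h0, Polynomial.coeff_zero, hG₀, Polynomial.finsetSum_coeff] at h1
    have h2 : ∀ j, (∑ i ∈ range (L + 1), Polynomial.C
        (Polynomial.C ((e.coeff j).coeff i) * Polynomial.X ^ (i + (J - j))) *
          thetaOp (R i j) L).coeff L =
        Polynomial.C ((e.coeff j).coeff L) * Polynomial.X ^ (L + (J - j) + L) := fun j => by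
      rw [Polynomial.finsetSum_coeff, Finset.sum_eq_single L (fun i hi hne => ?_)
        (fun h => absurd (mem_range.2 (Nat.lt_succ_self L)) h)]
      · have hmon : (R L j).Monic := by
          rw [hR]
          exact (monic_descPochhammer ℚ L).comp_X_add_C _
        have hco : (R L j).coeff L = 1 := by
          have h4 := hmon.coeff_natDegree
          rwa [hRd] at h4
        rw [Polynomial.coeff_C_mul, (hspec L (mem_range.2 (Nat.lt_succ_self L)) j).2.1, hco,
          map_one, one_mul, pow_add _ (L + (J - j)), mul_assoc]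
      · rw [mem_range] at hi
        rw [Polynomial.coeff_C_mul, (hspec i (mem_range.2 hi) j).2.1,
          Polynomial.coeff_eq_zero_of_natDegree_lt (p := R i j) (by rw [hRd]; omega), map_zero,
          zero_mul, mul_zero]
    have hj₀J : j₀ ≤ J := hJ ▸ Polynomial.le_natDegree_of_mem_supp _ hj₀
    have h3 := congrArg (fun q : ℚ[X] => q.coeff (L + (J - j₀) + L)) h1
    simp only [h2, Polynomial.coeff_zero, Polynomial.finsetSum_coeff,
      Polynomial.coeff_C_mul_X_pow] at h3
    rw [Finset.sum_eq_single j₀ (fun j hj hne => if_neg (by rw [mem_range] at hj; omega))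
      (fun h => absurd (mem_range.2 (by omega)) h), if_pos rfl, eq_comm, hL,
      Polynomial.coeff_natDegree, Polynomial.leadingCoeff_eq_zero] at h3
    exact Polynomial.mem_support_iff.1 hj₀ h3
  · rw [opApply_iterate_opD differential_atZero]
    ext k
    rw [PowerSeries.coeff_iterate_derivative, hzero, mul_zero, map_zero]

end FA.AndreEFunctions
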