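import Mathlib.Analysis.SpecialFunctions.Exponential
import Fermat.Agent.AndreEFunctions.Andre
import Fermat.Agent.SiegelShidlovskii.Main

/-!
# Zeros of E-functions

If an E-function vanishes at a rational `α ≠ 0` then its quotient by `α - X` is an E-function; by
André's theorem this has an equation regular at `α`, so all formal solutions at `α` of the minimal
equation of the function vanish at `α`.
-/

set_option autoImplicit false

noncomputable section

namespace FA.AndreEFunctions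

open Finset
open scoped Nat Polynomial
open FA.SiegelShidlovskii (IsEFunction HasVal val)

/-- The quotient of `f` by `α - X`. -/
def divLinear (α : ℚ) (f : PowerSeries ℚ) : PowerSeries ℚ :=
  PowerSeries.mk fun k => ∑ i ∈ range (k + 1), PowerSeries.coeff i f / α ^ (k + 1 - i)

theorem mul_divLinear {α : ℚ} (hα : α ≠ 0) (f : PowerSeries ℚ) :
    atZero (Polynomial.C α - Polynomial.X) * divLinear α f = f := by
  ext k
  rw [atZero_apply, Polynomial.coe_sub, Polynomial.coe_C, Polynomial.coe_X, sub_mul, map_sub,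
    PowerSeries.coeff_C_mul, divLinear]
  rcases k with _ | k
  · rw [PowerSeries.coeff_zero_X_mul, PowerSeries.coeff_mk, Finset.sum_range_one]
    field_simp
    ring
  · rw [PowerSeries.coeff_succ_X_mul, PowerSeries.coeff_mk, PowerSeries.coeff_mk,
      Finset.sum_range_succ _ (k + 1), mul_add, Finset.mul_sum, Nat.add_sub_cancel_left, pow_one,
      mul_div_cancel₀ _ hα, add_sub_right_comm, ← Finset.sum_sub_distrib]
    rw [Finset.sum_eq_zero fun i hi => ?_, zero_add]
    rw [mem_range] at hi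
    rw [show k + 1 + 1 - i = (k + 1 - i) + 1 by omega, pow_succ]
    field_simp
    ring

/-- **The quotient of a vanishing E-function is an E-function.** -/
theorem isEFunction_divLinear {α : ℚ} (hα : α ≠ 0) {f : PowerSeries ℚ} (hE : IsEFunction f)
    (hval : val f (α : ℝ) = 0) : IsEFunction (divLinear α f) := by
  have hv : HasVal f (α : ℝ) 0 := hval ▸ hE.expGrowth.hasVal _
  obtain ⟨C, hC, hd⟩ := hE
  have hC1 : 1 ≤ C := by
    obtain ⟨d, h0, hle, -⟩ := hd 0
    rw [Nat.zero_add, pow_one] at hle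
    omega
  obtain ⟨W, hW⟩ : ∃ W, W = ⌈Real.exp ((C : ℝ) * |(α : ℝ)|)⌉₊ := ⟨_, rfl⟩
  have hW1 : 1 ≤ W := hW ▸ Nat.one_le_ceil_iff.2 (Real.exp_pos _)
  obtain ⟨P, hP⟩ : ∃ P : ℕ, P = α.num.natAbs ^ 2 := ⟨_, rfl⟩
  have hP1 : 1 ≤ P := hP ▸ Nat.one_le_pow _ _ (Int.natAbs_pos.2 (Rat.num_ne_zero.2 hα))
  refine ⟨C ^ 2 * W * P, fun k => ?_, fun N => ?_⟩
  · -- the quotient is minus the tail
    have htail := (hasSum_nat_add_iff' (k + 1)).2 hv
    have hc : ((PowerSeries.coeff k (divLinear α f) : ℚ) : ℝ) * (α : ℝ) ^ (k + 1) =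
        ∑ i ∈ range (k + 1), ((PowerSeries.coeff i f : ℚ) : ℝ) * (α : ℝ) ^ i := by
      rw [divLinear, PowerSeries.coeff_mk]
      push_cast
      rw [Finset.sum_mul]
      refine Finset.sum_congr rfl fun i hi => ?_
      rw [mem_range] at hi
      have h1 : (α : ℝ) ≠ 0 := Rat.cast_ne_zero.2 hα
      rw [div_mul_eq_mul_div, div_eq_iff (pow_ne_zero _ h1), mul_assoc, ← pow_add,
        show i + (k + 1 - i) = k + 1 by omega]
    rw [zero_sub, ← hc] at htail
    have hexp : HasSum (fun t : ℕ => (C : ℝ) ^ (k + 2) * |(α : ℝ)| ^ (k + 1) *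
        (((C : ℝ) * |(α : ℝ)|) ^ t / (t ! : ℝ)))
        ((C : ℝ) ^ (k + 2) * |(α : ℝ)| ^ (k + 1) * Real.exp ((C : ℝ) * |(α : ℝ)|)) := by
      rw [Real.exp_eq_exp_ℝ]
      exact (NormedSpace.expSeries_div_hasSum_exp ((C : ℝ) * |(α : ℝ)|)).mul_left
        ((C : ℝ) ^ (k + 2) * |(α : ℝ)| ^ (k + 1))
    have h2 := tsum_of_norm_bounded hexp (f := fun t : ℕ => (k ! : ℝ) *
      (((PowerSeries.coeff (t + (k + 1)) f : ℚ) : ℝ) * (α : ℝ) ^ (t + (k + 1)))) fun t => by
      have h3 := hC (t + (k + 1))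
      rw [← Rat.cast_le (K := ℝ), Rat.cast_abs, Rat.cast_mul, Rat.cast_pow, Rat.cast_natCast,
        Rat.cast_natCast, abs_mul, Nat.abs_cast] at h3
      rw [Real.norm_eq_abs, abs_mul, abs_mul, Nat.abs_cast, abs_pow]
      have h4 : (k ! : ℝ) * (t ! : ℝ) ≤ ((t + (k + 1))! : ℝ) := by
        exact_mod_cast le_trans (Nat.le_of_dvd (Nat.factorial_pos _)
          (Nat.factorial_mul_factorial_dvd_factorial_add k t))
            (Nat.factorial_le (show k + t ≤ t + (k + 1) by omega))
      obtain ⟨b, hb⟩ : ∃ b, b = |((PowerSeries.coeff (t + (k + 1)) f : ℚ) : ℝ)| := ⟨_, rfl⟩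
      rw [← hb] at h3 ⊢
      have h5 : (k ! : ℝ) * b * (t ! : ℝ) ≤ (C : ℝ) ^ (t + (k + 1) + 1) := by
        refine le_trans ?_ h3
        rw [mul_right_comm]
        exact mul_le_mul_of_nonneg_right h4 (hb ▸ abs_nonneg _)
      calc (k ! : ℝ) * (b * |(α : ℝ)| ^ (t + (k + 1)))
          = (k ! : ℝ) * b * (t ! : ℝ) * |(α : ℝ)| ^ (t + (k + 1)) / (t ! : ℝ) := by
            field_simp
        _ ≤ (C : ℝ) ^ (t + (k + 1) + 1) * |(α : ℝ)| ^ (t + (k + 1)) / (t ! : ℝ) := by gcongr
        _ = _ := by ring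
    rw [(htail.mul_left (k ! : ℝ)).tsum_eq, Real.norm_eq_abs, mul_neg, abs_neg, ← mul_assoc,
      abs_mul, abs_pow, mul_comm ((C : ℝ) ^ (k + 2)), mul_assoc (|(α : ℝ)| ^ (k + 1)),
      mul_comm (|(α : ℝ)| ^ (k + 1))] at h2
    rw [← Rat.cast_le (K := ℝ), Rat.cast_abs, Rat.cast_mul, Rat.cast_pow, Rat.cast_natCast,
      Rat.cast_natCast]
    refine (le_of_mul_le_mul_right h2 (pow_pos (abs_pos.2 (Rat.cast_ne_zero.2 hα)) _)).trans ?_
    push_cast
    rw [mul_pow, mul_pow, ← pow_mul, mul_assoc]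
    refine mul_le_mul (pow_le_pow_right₀ (Nat.one_le_cast.2 hC1) (by omega)) ?_
      (Real.exp_pos _).le (by positivity)
    calc Real.exp ((C : ℝ) * |(α : ℝ)|) ≤ (W : ℝ) := hW ▸ Nat.le_ceil _
      _ ≤ (W : ℝ) ^ (k + 1) := le_self_pow₀ (Nat.one_le_cast.2 hW1) (by omega)
      _ ≤ (W : ℝ) ^ (k + 1) * (P : ℝ) ^ (k + 1) :=
          le_mul_of_one_le_right (by positivity) (one_le_pow₀ (Nat.one_le_cast.2 hP1))
  · obtain ⟨d, h0, hle, hz⟩ := hd N
    refine ⟨d * P ^ (N + 1), Nat.mul_pos h0 (Nat.pow_pos hP1), ?_, fun k hk => ?_⟩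
    · rw [mul_pow]
      refine Nat.mul_le_mul_right _ (hle.trans ?_)
      rw [mul_pow, ← pow_mul]
      exact le_trans (Nat.pow_le_pow_right hC1 (by omega))
        (Nat.le_mul_of_pos_right _ (Nat.pow_pos hW1))
    · choose z hz using fun i : Fin (k + 1) => hz i (by have := i.isLt; omega)
      refine ⟨∑ i : Fin (k + 1), z i * (k.descFactorial (k - i) : ℤ) *
        α.num ^ (2 * (N + 1) - (k + 1 - i)) * (α.den : ℤ) ^ (k + 1 - i), ?_⟩
      rw [divLinear, PowerSeries.coeff_mk, Finset.sum_range, Finset.mul_sum, Finset.mul_sum]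
      push_cast
      refine Finset.sum_congr rfl fun i _ => ?_
      have hi : (i : ℕ) ≤ k := Nat.le_of_lt_succ i.isLt
      have hfac : (k ! : ℚ) = ((i : ℕ)! : ℚ) * (k.descFactorial (k - i) : ℚ) := by
        have h1 := Nat.factorial_mul_descFactorial (Nat.sub_le k i)
        rw [Nat.sub_sub_self hi] at h1
        exact_mod_cast h1.symm
      have hP' : (P : ℚ) ^ (N + 1) =
          (α.num : ℚ) ^ (2 * (N + 1) - (k + 1 - i)) * (α.num : ℚ) ^ (k + 1 - i) := by
        rw [← pow_add, Nat.sub_add_cancel (by omega), hP, Nat.cast_pow, ← pow_mul,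
          Nat.cast_natAbs, Int.cast_abs, pow_mul, sq_abs, ← pow_mul]
      obtain ⟨r, hr⟩ : ∃ r, r = k + 1 - (i : ℕ) := ⟨_, rfl⟩
      rw [← hr] at hP' ⊢
      have hd' : α ^ r * (α.den : ℚ) ^ r = (α.num : ℚ) ^ r := by
        rw [← mul_pow, Rat.mul_den_eq_num]
      rw [hz, hfac, hP', ← hd']
      field_simp

/-- The operators `T i` with `(α - X) T i - ∂ T i / ∂ Y = (α - X) ^ (i + 1) Y ^ i`. -/
def clearOp (u : ℚ[X]) : ℕ → ℚ[X][X]
  | 0 => 1
  | i + 1 => Polynomial.monomial (i + 1) (u ^ (i + 1)) + ((i + 1 : ℕ) : ℚ[X][X]) * clearOp u i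

theorem clearOp_spec (u : ℚ[X]) : ∀ i : ℕ,
    Polynomial.C u * clearOp u i - Polynomial.derivative (clearOp u i) =
      Polynomial.monomial i (u ^ (i + 1))
  | 0 => by simp [clearOp]
  | i + 1 => by
    have ih := clearOp_spec u i
    have hr : ((i + 1 : ℕ) : ℚ[X][X]) * Polynomial.monomial i (u ^ (i + 1)) =
        Polynomial.monomial i (u ^ (i + 1) * ((i + 1 : ℕ) : ℚ[X])) := by
      rw [← map_natCast (Polynomial.C : ℚ[X] →+* ℚ[X][X]), Polynomial.C_mul_monomial, mul_comm]
    rw [clearOp, mul_add, map_add, Polynomial.C_mul_monomial, Polynomial.derivative_monomial,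
      Nat.add_sub_cancel, Polynomial.derivative_natCast_mul, ← hr, ← ih, pow_succ' u (i + 1)]
    ring

theorem clearOp_map (u : ℚ[X]) {α : ℚ} (hu : u.eval α = 0) : ∀ i : ℕ,
    (clearOp u i).map (Polynomial.evalRingHom α) = Polynomial.C (i ! : ℚ)
  | 0 => by simp [clearOp]
  | i + 1 => by
    rw [clearOp, Polynomial.map_add, Polynomial.map_monomial, map_pow, Polynomial.coe_evalRingHom,
      hu, zero_pow (Nat.succ_ne_zero i), map_zero, zero_add, Polynomial.map_mul,
      Polynomial.map_natCast, clearOp_map u hu i, Nat.factorial_succ]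
    push_cast
    simp

/-- An operator killing a vanishing E-function, of order zero at `α`. -/
theorem exists_operator_at_zero {α : ℚ} (hα : α ≠ 0) {f : PowerSeries ℚ} (hE : IsEFunction f)
    (hD : ∃ e : ℚ[X][X], e ≠ 0 ∧ opApply atZero e f = 0) (hval : val f (α : ℝ) = 0) :
    ∃ (E : ℚ[X][X]) (c : ℚ), c ≠ 0 ∧ E.map (Polynomial.evalRingHom α) = Polynomial.C c ∧
      opApply atZero E f = 0 := by
  obtain ⟨u, hu⟩ : ∃ u, u = Polynomial.C α - Polynomial.X := ⟨_, rfl⟩
  have hu' : Polynomial.derivative u = -1 := by simp [hu]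
  have huα : u.eval α = 0 := by simp [hu]
  have hu0 : u ≠ 0 := fun h => by simp [h] at hu'
  have hfh : atZero u * divLinear α f = f := hu ▸ mul_divLinear hα f
  obtain ⟨h, hh⟩ : ∃ h, h = divLinear α f := ⟨_, rfl⟩
  rw [← hh] at hfh
  obtain ⟨e, he, hef⟩ := hD
  have hne : Polynomial.C u * e - Polynomial.derivative e ≠ 0 := fun h0 => by
    have h1 := congrArg (fun q : ℚ[X][X] => q.coeff e.natDegree) h0
    simp only [Polynomial.coeff_sub, Polynomial.coeff_C_mul, Polynomial.coeff_derivative,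
      Polynomial.coeff_zero, Polynomial.coeff_eq_zero_of_natDegree_lt (Nat.lt_succ_self _),
      zero_mul, sub_zero, Polynomial.coeff_natDegree, mul_eq_zero,
      Polynomial.leadingCoeff_eq_zero] at h1
    exact h1.elim hu0 he
  obtain ⟨M, N, v, z, hz, hdeg, hco, hM⟩ := exists_andre_operator
    (hh ▸ isEFunction_divLinear hα hE hval) ⟨_, hne,
      by rw [← opApply_linear_mul differential_atZero hu', hfh, hef]⟩
  refine ⟨∑ i ∈ range (N + 1), Polynomial.C (M.coeff i * u ^ (N - i)) * clearOp u i,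
    z * α ^ v * (N ! : ℚ), mul_ne_zero (mul_ne_zero hz (pow_ne_zero _ hα))
      (Nat.cast_ne_zero.2 (Nat.factorial_ne_zero _)), ?_, ?_⟩
  · rw [Polynomial.map_sum, Finset.sum_eq_single N (fun i hi hne => ?_)
      (fun h => absurd (mem_range.2 (Nat.lt_succ_self N)) h), Polynomial.map_mul,
      Polynomial.map_C, clearOp_map u huα, ← map_mul, hco, Nat.sub_self]
    · simp
    · rw [mem_range] at hi
      simp [huα, zero_pow (show N - i ≠ 0 by omega)]
  · rw [← hfh, opApply_linear_mul differential_atZero hu', Finset.mul_sum,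
      Polynomial.derivative_sum, ← Finset.sum_sub_distrib]
    have h1 : ∀ i ∈ range (N + 1), Polynomial.C u *
        (Polynomial.C (M.coeff i * u ^ (N - i)) * clearOp u i) -
          Polynomial.derivative (Polynomial.C (M.coeff i * u ^ (N - i)) * clearOp u i) =
        Polynomial.C (u ^ (N + 1)) * Polynomial.monomial i (M.coeff i) := fun i hi => by
      rw [mem_range] at hi
      rw [Polynomial.derivative_C_mul, mul_left_comm, ← mul_sub, clearOp_spec,
        Polynomial.C_mul_monomial, Polynomial.C_mul_monomial, mul_assoc, ← pow_add,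
        show N - i + (i + 1) = N + 1 by omega, mul_comm]
    rw [Finset.sum_congr rfl h1, ← Finset.mul_sum,
      ← Polynomial.as_sum_range' M (N + 1) (Nat.lt_succ_of_le hdeg), opApply_C_mul, hM, mul_zero]

/-- **Zeros of E-functions.** If `f α = 0` at a rational `α ≠ 0`, every formal solution at `α` of
the minimal equation of `f` vanishes at `α`. -/
theorem constantCoeff_eq_zero_of_vanishing {α : ℚ} (hα : α ≠ 0) {f : PowerSeries ℚ}
    (hE : IsEFunction f) (hval : val f (α : ℝ) = 0) {L : ℚ[X][X]} {n : ℕ} (hLn : L.natDegree ≤ n)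
    (hℓ : L.coeff n ≠ 0) (hLf : opApply atZero L f = 0)
    (hmin : ∀ e : ℚ[X][X], (∀ j, n ≤ j → e.coeff j = 0) → opApply atZero e f = 0 → e = 0)
    {y : PowerSeries ℚ} (hy : opApply (atPoint α) L y = 0) :
    PowerSeries.constantCoeff y = 0 := by
  obtain ⟨E, c, hc, hEmap, hEf⟩ := exists_operator_at_zero hα hE
    ⟨L, fun h => hℓ (by rw [h, Polynomial.coeff_zero]), hLf⟩ hval
  have h := congrArg PowerSeries.constantCoeff (opApply_eq_zero_of_minimal (differential_atPoint α)
    hLn (atPoint_ne_zero α hℓ) hLf hmin hy hEf)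
  rw [opApply_eq_sum_range E (Nat.lt_succ_self _), map_sum, map_zero,
    Finset.sum_eq_single 0 (fun j _ hj => ?_)
      (fun h => absurd (mem_range.2 (Nat.succ_pos _)) h)] at h
  · have h0 := congrArg (fun q : ℚ[X] => q.coeff 0) hEmap
    simp only [Polynomial.coeff_map, Polynomial.coe_evalRingHom, Polynomial.coeff_C_zero] at h0
    rw [map_mul, constantCoeff_atPoint, h0, Function.iterate_zero_apply] at h
    exact (mul_eq_zero.1 h).resolve_left hc
  · have h0 := congrArg (fun q : ℚ[X] => q.coeff j) hEmap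
    simp only [Polynomial.coeff_map, Polynomial.coe_evalRingHom,
      Polynomial.coeff_C_of_ne_zero hj] at h0
    rw [map_mul, constantCoeff_atPoint, h0, zero_mul]

end FA.AndreEFunctions
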