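import Mathlib.LinearAlgebra.Dual.Lemmas
import Mathlib.LinearAlgebra.Dimension.Finite
import Fermat.Agent.AndreEFunctions.Vanishing
import Fermat.Agent.SiegelShidlovskii.DependentRank

/-!
# Beukers' lifting of relations

For a solution `Y` of the system at a regular point `α`, orthogonal at `α` to all relations between
the functions, the formal series `∑ b i Y i` solves the minimal equation of `∑ b i f i`; so a
relation between the values at a rational `α` is the value of a relation between the functions.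
-/

set_option autoImplicit false

noncomputable section

namespace FA.AndreEFunctions

open Finset
open scoped Nat Polynomial
open FA.SiegelShidlovskii (IsEFunction IsSolution formSeries vecDeriv val cval monomialSeries
  degreeIndex degreeSystem)

variable {m : ℕ} {σ : ℚ[X] →+* PowerSeries ℚ} {T : ℚ[X]} {Q : Matrix (Fin m) (Fin m) ℚ[X]}
  {Y : Fin m → PowerSeries ℚ}

/-- The form `∑ P j Y j`, the coefficients read through `σ`. -/
def formAt (σ : ℚ[X] →+* PowerSeries ℚ) (Y : Fin m → PowerSeries ℚ) (P : Fin m → ℚ[X]) :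
    PowerSeries ℚ :=
  ∑ j, σ (P j) * Y j

/-- `Y` solves the system, read through `σ`. -/
def SolutionAt (σ : ℚ[X] →+* PowerSeries ℚ) (T : ℚ[X]) (Q : Matrix (Fin m) (Fin m) ℚ[X])
    (Y : Fin m → PowerSeries ℚ) : Prop :=
  ∀ i, σ T * PowerSeries.derivative ℚ (Y i) = ∑ j, σ (Q i j) * Y j

theorem formAt_atZero (f : Fin m → PowerSeries ℚ) (P : Fin m → ℚ[X]) :
    formAt atZero f P = formSeries f P :=
  rfl

theorem mul_derivative_formAt (hσ : Differential' σ) (hY : SolutionAt σ T Q Y)
    (P : Fin m → ℚ[X]) :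
    σ T * PowerSeries.derivative ℚ (formAt σ Y P) = formAt σ Y (vecDeriv T Q P) := by
  simp only [formAt, vecDeriv, map_sum, map_add, map_mul, Derivation.leibniz, smul_eq_mul, hσ _,
    Finset.mul_sum, add_mul, mul_add, Finset.sum_add_distrib, Finset.sum_mul]
  rw [add_comm]
  congr 1
  · exact Finset.sum_congr rfl fun j _ => by ring
  · rw [Finset.sum_comm (γ := Fin m)]
    refine Finset.sum_congr rfl fun i _ => ?_
    calc σ T * (σ (P i) * PowerSeries.derivative ℚ (Y i))
        = σ (P i) * (σ T * PowerSeries.derivative ℚ (Y i)) := by ring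
      _ = _ := by
          rw [hY i, Finset.mul_sum]
          exact Finset.sum_congr rfl fun j _ => by ring

/-- The vectors of the derivatives of a form. -/
def derVec (T : ℚ[X]) (Q : Matrix (Fin m) (Fin m) ℚ[X]) (P : Fin m → ℚ[X]) :
    ℕ → Fin m → ℚ[X]
  | 0 => P
  | k + 1 => fun j =>
      vecDeriv T Q (derVec T Q P k) j - (k : ℚ[X]) * Polynomial.derivative T * derVec T Q P k j

theorem derVec_spec (hσ : Differential' σ) (hY : SolutionAt σ T Q Y) (P : Fin m → ℚ[X]) :
    ∀ k : ℕ, σ (T ^ k) * (PowerSeries.derivative ℚ)^[k] (formAt σ Y P) =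
      formAt σ Y (derVec T Q P k)
  | 0 => by simp [derVec]
  | k + 1 => by
    have ih := derVec_spec hσ hY P k
    have h1 := congrArg (fun g => σ T * PowerSeries.derivative ℚ g) ih
    simp only [mul_derivative_formAt hσ hY, Derivation.leibniz, smul_eq_mul, hσ _] at h1
    have h2 : T * Polynomial.derivative (T ^ k) =
        (k : ℚ[X]) * Polynomial.derivative T * T ^ k := by
      rcases k with _ | k
      · simp
      · rw [Polynomial.derivative_pow_succ, pow_succ]
        push_cast
        rw [map_add, map_natCast, map_one]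
        ring
    have h3 := congrArg σ h2
    rw [map_mul, map_mul, map_mul, map_natCast] at h3
    have h4 : formAt σ Y (derVec T Q P (k + 1)) = formAt σ Y (vecDeriv T Q (derVec T Q P k)) -
        (k : PowerSeries ℚ) * σ (Polynomial.derivative T) * formAt σ Y (derVec T Q P k) := by
      simp only [formAt, derVec, map_sub, map_mul, map_natCast, sub_mul, Finset.sum_sub_distrib,
        Finset.mul_sum, mul_assoc]
    rw [h4, ← h1, ← ih, Function.iterate_succ_apply', pow_succ, map_mul]
    linear_combination -((PowerSeries.derivative ℚ)^[k] (formAt σ Y P)) * h3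

/-- The coefficients of the solution of `Y' = R Y` with given initial values. -/
def solCoeff (R : Fin m → Fin m → PowerSeries ℚ) (y₀ : Fin m → ℚ) : ℕ → Fin m → ℚ
  | 0 => y₀
  | k + 1 => fun i =>
      (∑ a : Fin (k + 1), ∑ j, PowerSeries.coeff a (R i j) * solCoeff R y₀ (k - a) j) / (k + 1)
  termination_by k => k
  decreasing_by omega

/-- **Solutions at a regular point.** -/
theorem exists_solutionAt (hT : PowerSeries.constantCoeff (σ T) ≠ 0)
    (Q : Matrix (Fin m) (Fin m) ℚ[X]) (y₀ : Fin m → ℚ) :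
    ∃ Y : Fin m → PowerSeries ℚ, SolutionAt σ T Q Y ∧
      ∀ i, PowerSeries.constantCoeff (Y i) = y₀ i := by
  obtain ⟨R, hR⟩ : ∃ R : Fin m → Fin m → PowerSeries ℚ, R = fun i j => (σ T)⁻¹ * σ (Q i j) :=
    ⟨_, rfl⟩
  obtain ⟨Y, hY⟩ : ∃ Y : Fin m → PowerSeries ℚ,
      Y = fun i => PowerSeries.mk fun k => solCoeff R y₀ k i := ⟨_, rfl⟩
  have key : ∀ i, PowerSeries.derivative ℚ (Y i) = ∑ j, R i j * Y j := fun i => by
    ext k
    rw [PowerSeries.coeff_derivative, hY, PowerSeries.coeff_mk, map_sum, solCoeff,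
      div_mul_cancel₀ _ (by positivity), Finset.sum_comm]
    refine Finset.sum_congr rfl fun j _ => ?_
    rw [PowerSeries.coeff_mul, Finset.Nat.sum_antidiagonal_eq_sum_range_succ_mk, Finset.sum_range]
    simp only [PowerSeries.coeff_mk]
  refine ⟨Y, fun i => ?_, fun i => ?_⟩
  · rw [key, Finset.mul_sum]
    refine Finset.sum_congr rfl fun j _ => ?_
    rw [hR, ← mul_assoc, ← mul_assoc, PowerSeries.mul_inv_cancel _ hT, one_mul]
  · rw [hY, ← PowerSeries.coeff_zero_eq_constantCoeff_apply, PowerSeries.coeff_mk, solCoeff]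

/-- A solution orthogonal at `α` to the relations is orthogonal to them. -/
theorem formAt_eq_zero {α : ℚ} (hα : T.eval α ≠ 0) {f : Fin m → PowerSeries ℚ}
    (hf : IsSolution T Q f) (hY : SolutionAt (atPoint α) T Q Y)
    (h0 : ∀ P, formSeries f P = 0 → ∑ i, (P i).eval α * PowerSeries.constantCoeff (Y i) = 0)
    {P : Fin m → ℚ[X]} (hP : formSeries f P = 0) : formAt (atPoint α) Y P = 0 := by
  have hu : IsUnit (atPoint α T) := PowerSeries.isUnit_iff_constantCoeff.2
    (isUnit_iff_ne_zero.2 (by rwa [constantCoeff_atPoint]))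
  suffices H : ∀ k, ∀ P, formSeries f P = 0 →
      PowerSeries.X ^ k ∣ formAt (atPoint α) Y P from
    PowerSeries.ext fun k => by
      rw [map_zero]
      exact PowerSeries.X_pow_dvd_iff.1 (H (k + 1) P hP) k (Nat.lt_succ_self k)
  intro k
  induction k with
  | zero => exact fun P _ => by rw [pow_zero]; exact one_dvd _
  | succ k ih =>
    intro P hP
    have h1 : formSeries f (vecDeriv T Q P) = 0 := by
      rw [← FA.SiegelShidlovskii.mul_derivative_formSeries hf, hP, map_zero, mul_zero]
    have h2 := ih _ h1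
    rw [← mul_derivative_formAt (differential_atPoint α) hY, hu.dvd_mul_left,
      PowerSeries.X_pow_dvd_iff] at h2
    rw [PowerSeries.X_pow_dvd_iff]
    intro i hi
    rcases i with _ | i
    · rw [PowerSeries.coeff_zero_eq_constantCoeff_apply, formAt, map_sum, ← h0 P hP]
      simp only [map_mul, constantCoeff_atPoint]
    · have h3 := h2 i (by omega)
      rw [PowerSeries.coeff_derivative] at h3
      exact (mul_eq_zero.1 h3).resolve_right (by positivity)

/-- An operator of least order killing a series. -/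
theorem exists_minimal_operator {F : PowerSeries ℚ} {e : ℚ[X][X]} (he : e ≠ 0)
    (heF : opApply atZero e F = 0) :
    ∃ L : ℚ[X][X], L.coeff L.natDegree ≠ 0 ∧ opApply atZero L F = 0 ∧
      ∀ e' : ℚ[X][X], (∀ j, L.natDegree ≤ j → e'.coeff j = 0) →
        opApply atZero e' F = 0 → e' = 0 := by
  classical
  have hex : ∃ (n : ℕ) (L : ℚ[X][X]), L ≠ 0 ∧ L.natDegree = n ∧ opApply atZero L F = 0 :=
    ⟨_, e, he, rfl, heF⟩
  obtain ⟨L, hL, hdeg, hLF⟩ := Nat.find_spec hex
  refine ⟨L, by rwa [Polynomial.coeff_natDegree, Ne, Polynomial.leadingCoeff_eq_zero], hLF,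
    fun e' he' he'F => ?_⟩
  by_contra hne
  refine Nat.find_min hex ?_ ⟨e', hne, rfl, he'F⟩
  rw [← hdeg]
  by_contra hlt
  refine hne (Polynomial.leadingCoeff_eq_zero.1 ?_)
  rw [← Polynomial.coeff_natDegree]
  exact he' _ (not_lt.1 hlt)

/-- **Beukers' lifting of linear relations** at a rational point. -/
theorem exists_relation_of_values (hT0 : T ≠ 0) {f : Fin m → PowerSeries ℚ}
    (hE : ∀ i, IsEFunction (f i)) (hf : IsSolution T Q f) {α : ℚ} (hα0 : α ≠ 0)
    (hα : T.eval α ≠ 0) {b : Fin m → ℚ} (hb : ∑ i, (b i : ℝ) * val (f i) (α : ℝ) = 0) :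
    ∃ P : Fin m → ℚ[X], formSeries f P = 0 ∧ ∀ i, (P i).eval α = b i := by
  classical
  let S : Submodule ℚ (Fin m → ℚ) :=
    { carrier := {v | ∃ P, formSeries f P = 0 ∧ ∀ i, (P i).eval α = v i}
      zero_mem' := ⟨0, by simp [formSeries], by simp⟩
      add_mem' := by
        rintro v w ⟨P, hP, hPv⟩ ⟨R, hR, hRw⟩
        refine ⟨P + R, ?_, fun i => by simp [hPv, hRw]⟩
        simp only [formSeries, Pi.add_apply, Polynomial.coe_add, add_mul, Finset.sum_add_distrib]
        rw [formSeries] at hP hR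
        rw [hP, hR, add_zero]
      smul_mem' := by
        rintro c v ⟨P, hP, hPv⟩
        refine ⟨fun i => Polynomial.C c * P i, ?_, fun i => by simp [hPv]⟩
        simp only [formSeries, Polynomial.coe_mul, Polynomial.coe_C, mul_assoc, ← Finset.mul_sum]
        rw [formSeries] at hP
        rw [hP, mul_zero] }
  by_contra hcon
  have hbS : b ∉ S := hcon
  obtain ⟨ψ, hψb, hψS⟩ := Submodule.exists_dual_map_eq_bot_of_notMem hbS inferInstance
  have hψ : ∀ v : Fin m → ℚ, ∑ i, v i * ψ (Pi.single i 1) = ψ v := fun v => by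
    conv_rhs => rw [pi_eq_sum_univ' v, map_sum]
    exact Finset.sum_congr rfl fun i _ => by rw [map_smul, smul_eq_mul]
  obtain ⟨Y, hY, hY0⟩ := exists_solutionAt (σ := atPoint α) (T := T)
    (by rwa [constantCoeff_atPoint]) Q fun i => ψ (Pi.single i 1)
  have horth : ∀ P, formSeries f P = 0 → formAt (atPoint α) Y P = 0 := fun P hP =>
    formAt_eq_zero hα hf hY (fun R hR => by
      simp only [hY0]
      rw [hψ fun i => (R i).eval α]
      have h1 : ψ (fun i => (R i).eval α) ∈ S.map ψ :=
        Submodule.mem_map_of_mem ⟨R, hR, fun i => rfl⟩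
      rwa [hψS, Submodule.mem_bot] at h1) hP
  -- the series whose value is the relation, and its minimal equation
  obtain ⟨c, hc⟩ : ∃ c, c = derVec T Q (fun i => Polynomial.C (b i)) := ⟨_, rfl⟩
  obtain ⟨F, hF⟩ : ∃ F, F = formSeries f fun i => Polynomial.C (b i) := ⟨_, rfl⟩
  have hcF : ∀ k, atZero (T ^ k) * (PowerSeries.derivative ℚ)^[k] F = formSeries f (c k) := by
    intro k
    have h1 := derVec_spec (σ := atZero) (Y := f) differential_atZero hf
      (fun i => Polynomial.C (b i)) k
    rw [formAt_atZero, formAt_atZero, ← hc, ← hF] at h1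
    exact h1
  have hdep : ¬LinearIndependent ℚ[X] fun k : Fin (m + 1) => c k := fun h => by
    have h1 := h.fintype_card_le_finrank
    rw [Module.finrank_fin_fun, Fintype.card_fin] at h1
    omega
  rw [Fintype.not_linearIndependent_iff] at hdep
  obtain ⟨g, hg, k₀, hk₀⟩ := hdep
  obtain ⟨e, he⟩ : ∃ e : ℚ[X][X],
      e = ∑ k : Fin (m + 1), Polynomial.monomial (k : ℕ) (g k * T ^ (k : ℕ)) := ⟨_, rfl⟩
  have he0 : e ≠ 0 := fun h => by
    have h1 := congrArg (fun q : ℚ[X][X] => q.coeff k₀) (he.symm.trans h)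
    simp only [Polynomial.finsetSum_coeff, Polynomial.coeff_monomial, Polynomial.coeff_zero] at h1
    rw [Finset.sum_eq_single k₀ (fun k _ hk => if_neg fun h => hk (Fin.ext h))
      (fun h => absurd (mem_univ _) h), if_pos rfl] at h1
    exact hk₀ ((mul_eq_zero.1 h1).resolve_right (pow_ne_zero _ hT0))
  have heF : opApply atZero e F = 0 := by
    rw [he, opApply_sum]
    simp only [opApply_monomial, map_mul, mul_assoc, hcF]
    simp only [atZero_apply]
    rw [← FA.SiegelShidlovskii.formSeries_smul_sum]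
    have h1 : (fun j => ∑ k, g k * c k j) = (0 : Fin m → ℚ[X]) := by
      rw [← hg]
      ext1 j
      simp
    rw [h1]
    simp [formSeries]
  obtain ⟨L, hℓ, hLF, hmin⟩ := exists_minimal_operator he0 heF
  -- the value of `F` and the formal solution
  have hgr : ∀ i, FA.SiegelShidlovskii.ExpGrowth (f i) := fun i => (hE i).expGrowth
  have hFval : val F (α : ℝ) = 0 := by
    rw [hF, (FA.SiegelShidlovskii.hasVal_formSeries hgr _ _).val_eq]
    simpa using hb
  have hFE : IsEFunction F := by
    rw [hF]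
    exact FA.SiegelShidlovskii.IsEFunction.formSeries hE _
  have hy : opApply (atPoint α) L (formAt (atPoint α) Y fun i => Polynomial.C (b i)) = 0 := by
    obtain ⟨n, hn⟩ : ∃ n, n = L.natDegree := ⟨_, rfl⟩
    obtain ⟨P, hP⟩ : ∃ P : Fin m → ℚ[X],
        P = fun i => ∑ j ∈ range (n + 1), (L.coeff j * T ^ (n - j)) * c j i := ⟨_, rfl⟩
    have hgen : ∀ (σ : ℚ[X] →+* PowerSeries ℚ) (Z : Fin m → PowerSeries ℚ), Differential' σ →
        SolutionAt σ T Q Z → formAt σ Z P =
          σ (T ^ n) * opApply σ L (formAt σ Z fun i => Polynomial.C (b i)) := by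
      intro σ Z hσ hZ
      rw [opApply_eq_sum_range L (N := n + 1) (by omega), Finset.mul_sum, hP]
      simp only [formAt, map_sum, Finset.sum_mul]
      rw [Finset.sum_comm]
      refine Finset.sum_congr rfl fun j hj => ?_
      have h1 := derVec_spec hσ hZ (fun i => Polynomial.C (b i)) j
      rw [← hc, formAt, formAt] at h1
      simp only [map_mul, mul_assoc, ← Finset.mul_sum, ← h1]
      rw [show T ^ n = T ^ (n - j) * T ^ j by
        rw [← pow_add, Nat.sub_add_cancel (Nat.le_of_lt_succ (mem_range.1 hj))], map_mul]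
      ring
    have hPf : formSeries f P = 0 := by
      rw [← formAt_atZero, hgen atZero f differential_atZero hf, formAt_atZero, ← hF, hLF,
        mul_zero]
    have h1 := horth P hPf
    rw [hgen _ Y (differential_atPoint α) hY, mul_eq_zero] at h1
    exact h1.resolve_left (atPoint_ne_zero α (pow_ne_zero _ hT0))
  have h := constantCoeff_eq_zero_of_vanishing hα0 hFE hFval le_rfl hℓ hLF hmin hy
  rw [formAt, map_sum] at h
  simp only [map_mul, constantCoeff_atPoint, Polynomial.eval_C, hY0] at h
  exact hψb ((hψ b).symm.trans h)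

/-- **Beukers' lifting of polynomial relations** at a rational point. -/
theorem exists_polynomial_relation (hT0 : T ≠ 0) {f : Fin m → PowerSeries ℚ} {q : Fin m → ℚ[X]}
    (hE : ∀ i, IsEFunction (f i))
    (hf : ∀ i, (T : PowerSeries ℚ) * PowerSeries.derivative ℚ (f i) =
      (q i : PowerSeries ℚ) + ∑ j, (Q i j : PowerSeries ℚ) * f j)
    {α : ℚ} (hα0 : α ≠ 0) (hα : T.eval α ≠ 0) {p : MvPolynomial (Fin m) ℚ}
    (hp : MvPolynomial.aeval (fun i => val (f i) (α : ℝ)) p = 0) :
    ∃ P : MvPolynomial (Fin m) ℚ[X],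
      MvPolynomial.eval₂ Polynomial.coeToPowerSeries.ringHom f P = 0 ∧
      MvPolynomial.map (Polynomial.evalRingHom α) P = p ∧ P.totalDegree ≤ p.totalDegree := by
  classical
  obtain ⟨D, hD⟩ : ∃ D, D = p.totalDegree := ⟨_, rfl⟩
  obtain ⟨e, -⟩ : ∃ _e : Fin (degreeIndex m D).card ≃ degreeIndex m D, True :=
    ⟨(degreeIndex m D).equivFin.symm, trivial⟩
  have hval : ∀ μ : Fin m →₀ ℕ,
      val (monomialSeries f μ) (α : ℝ) = ∏ i, val (f i) (α : ℝ) ^ μ i := fun μ => by
    have h := (FA.SiegelShidlovskii.monomialSeries_spec hE μ ((α : ℝ) : ℂ)).2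
    simp only [FA.SiegelShidlovskii.cval_ofReal] at h
    exact_mod_cast h
  have hsub : p.support ⊆ degreeIndex m D := fun μ hμ => by
    rw [FA.SiegelShidlovskii.mem_degreeIndex, hD, ← Finsupp.sum_fintype μ (fun _ x => x)
      (fun _ => rfl)]
    exact MvPolynomial.le_totalDegree hμ
  have hsum : ∑ a, ((p.coeff (e a) : ℚ) : ℝ) * val (monomialSeries f (e a)) (α : ℝ) = 0 := by
    rw [e.sum_comp (fun μ : degreeIndex m D =>
        ((p.coeff μ : ℚ) : ℝ) * val (monomialSeries f μ) (α : ℝ)),
      Finset.sum_coe_sort (degreeIndex m D)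
        (fun μ => ((p.coeff μ : ℚ) : ℝ) * val (monomialSeries f μ) (α : ℝ))]
    refine Eq.trans ?_ hp
    rw [MvPolynomial.aeval_def, MvPolynomial.eval₂_eq', ← Finset.sum_subset hsub fun μ _ hμ => ?_]
    · exact Finset.sum_congr rfl fun μ _ => by rw [hval, eq_ratCast]
    · rw [MvPolynomial.notMem_support_iff.1 hμ, Rat.cast_zero, zero_mul]
  obtain ⟨P, hP, hPb⟩ := exists_relation_of_values hT0
    (fun a => (FA.SiegelShidlovskii.monomialSeries_spec hE (e a) 0).1)
    (FA.SiegelShidlovskii.isSolution_degreeSystem e hf) hα0 hα hsum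
  refine ⟨∑ a, MvPolynomial.monomial (e a : Fin m →₀ ℕ) (P a), ?_, ?_, ?_⟩
  · rw [MvPolynomial.eval₂_sum, ← hP, formSeries]
    refine Finset.sum_congr rfl fun a _ => ?_
    rw [MvPolynomial.eval₂_monomial, Finsupp.prod_fintype _ _ (by simp)]
    rfl
  · rw [map_sum]
    simp only [MvPolynomial.map_monomial, Polynomial.coe_evalRingHom, hPb]
    rw [e.sum_comp (fun μ : degreeIndex m D => MvPolynomial.monomial (μ : Fin m →₀ ℕ) (p.coeff μ)),
      Finset.sum_coe_sort (degreeIndex m D) (fun μ => MvPolynomial.monomial μ (p.coeff μ)),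
      ← Finset.sum_subset hsub fun μ _ hμ => by
        rw [MvPolynomial.notMem_support_iff.1 hμ, map_zero]]
    exact (MvPolynomial.as_sum p).symm
  · refine (MvPolynomial.totalDegree_finsetSum _ _).trans (Finset.sup_le fun a _ => ?_)
    refine (MvPolynomial.totalDegree_monomial_le _ _).trans ?_
    rw [Finsupp.sum_fintype _ _ (fun _ => rfl), ← hD]
    exact FA.SiegelShidlovskii.mem_degreeIndex.1 (e a).2

end FA.AndreEFunctions
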