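import Fermat.Agent.AndreEFunctions.Lifting
import Mathlib.RingTheory.PowerSeries.Exp

/-!
# Zeros of E-functions and the minimal equation; the exponential function

A rational zero `α ≠ 0` of an E-function is a singular point of its minimal equation; so `e ^ α` is
irrational.
-/

set_option autoImplicit false

noncomputable section

namespace FA.AndreEFunctions

open Finset
open scoped Nat Polynomial
open FA.SiegelShidlovskii (IsEFunction val HasVal formSeries)
open FA.GFunctions (IsMinimalEquation applyOp)

theorem iterate_isEFunction {f : PowerSeries ℚ} (hE : IsEFunction f) :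
    ∀ j : ℕ, IsEFunction ((PowerSeries.derivative ℚ)^[j] f)
  | 0 => hE
  | j + 1 => by
    rw [Function.iterate_succ_apply']
    exact (iterate_isEFunction hE j).derivative

/-- **A rational zero of an E-function is a singular point of its minimal equation.** -/
theorem leading_eval_eq_zero {f : PowerSeries ℚ} (hE : IsEFunction f) (hf0 : f ≠ 0)
    {a : ℕ → ℤ[X]} {n : ℕ} (h : IsMinimalEquation a n f) {α : ℚ} (hα0 : α ≠ 0)
    (hval : val f (α : ℝ) = 0) : ((a n).map (Int.castRingHom ℚ)).eval α = 0 := by
  classical
  by_contra hne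
  have hn : 0 < n := by
    rcases Nat.eq_zero_or_pos n with rfl | hn
    · exfalso
      have h1 := h.2.1
      simp only [applyOp, zero_add, Finset.sum_range_one, Function.iterate_zero_apply, mul_eq_zero,
        hf0,
        or_false, Polynomial.coe_eq_zero_iff] at h1
      exact h.1 ((Polynomial.map_eq_zero_iff (Int.castRingHom ℚ).injective_int).1 h1)
    · exact hn
  obtain ⟨P, hP, hPb⟩ := exists_relation_of_values
    ((Polynomial.map_ne_zero_iff (Int.castRingHom ℚ).injective_int).2 h.1)
    (f := fun j : Fin n => (PowerSeries.derivative ℚ)^[(j : ℕ)] f)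
    (fun j => iterate_isEFunction hE _) (FA.GFunctions.isSolution_companion h.2.1) hα0 hne
    (b := Pi.single ⟨0, hn⟩ 1) (by
      rw [Finset.sum_eq_single (⟨0, hn⟩ : Fin n) (fun j _ hj => by simp [hj])
        (fun hnot => absurd (mem_univ _) hnot)]
      simpa using hval)
  have h2 := hPb ⟨0, hn⟩
  rw [h.independent P hP] at h2
  simp at h2

theorem isEFunction_exp : IsEFunction (PowerSeries.exp ℚ) := by
  have hone : ∀ k, (k ! : ℚ) * PowerSeries.coeff k (PowerSeries.exp ℚ) = 1 := fun k => by
    simp [PowerSeries.coeff_exp, Nat.factorial_ne_zero]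
  exact ⟨1, fun k => by rw [hone]; simp, fun N => ⟨1, one_pos, by simp, fun k _ =>
    ⟨1, by rw [hone]; simp⟩⟩⟩

theorem val_exp (x : ℝ) : val (PowerSeries.exp ℚ) x = Real.exp x := by
  refine HasVal.val_eq (g := PowerSeries.exp ℚ) ?_
  rw [Real.exp_eq_exp_ℝ]
  refine (NormedSpace.expSeries_div_hasSum_exp x).congr_fun fun k => ?_
  simp [PowerSeries.coeff_exp, div_eq_inv_mul]

theorem val_one (x : ℝ) : val (1 : PowerSeries ℚ) x = 1 := by
  refine HasVal.val_eq ?_
  refine (hasSum_ite_eq 0 (1 : ℝ)).congr_fun fun k => ?_
  rw [PowerSeries.coeff_one]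
  split_ifs with h <;> simp [h]

/-- `exp` is not a quotient of polynomials. -/
theorem exp_independent {A B : ℚ[X]}
    (h : (A : PowerSeries ℚ) + (B : PowerSeries ℚ) * PowerSeries.exp ℚ = 0) : A = 0 ∧ B = 0 := by
  have hd := congrArg (PowerSeries.derivative ℚ) h
  simp only [map_add, map_zero, Derivation.leibniz, smul_eq_mul, PowerSeries.derivative_coe,
    PowerSeries.derivative_exp] at hd
  have key : Polynomial.derivative A * B = A * (Polynomial.derivative B + B) := by
    refine Polynomial.coe_inj.1 ?_
    rw [Polynomial.coe_mul, Polynomial.coe_mul, Polynomial.coe_add]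
    linear_combination (B : PowerSeries ℚ) * hd -
      ((Polynomial.derivative B : PowerSeries ℚ) + (B : PowerSeries ℚ)) * h
  have hexp : (PowerSeries.exp ℚ : PowerSeries ℚ) ≠ 0 := fun e => by
    simpa using congrArg (PowerSeries.constantCoeff (R := ℚ)) e
  by_cases hA : A = 0
  · subst hA
    rw [Polynomial.coe_zero, zero_add, mul_eq_zero, Polynomial.coe_eq_zero_iff] at h
    exact ⟨rfl, h.resolve_right hexp⟩
  exfalso
  have hB : B ≠ 0 := fun hB => hA (by simpa [hB] using h)
  have h1 : (Polynomial.derivative A * B).degree < (A * (Polynomial.derivative B + B)).degree := by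
    rw [Polynomial.degree_mul, Polynomial.degree_mul,
      Polynomial.degree_add_eq_right_of_degree_lt (Polynomial.degree_derivative_lt hB)]
    exact WithBot.add_lt_add_right (by rwa [Ne, Polynomial.degree_eq_bot])
      (Polynomial.degree_derivative_lt hA)
  exact h1.ne (congrArg Polynomial.degree key)

/-- **`e ^ α` is irrational for rational `α ≠ 0`.** -/
theorem irrational_exp {α : ℚ} (hα : α ≠ 0) : Irrational (Real.exp α) := by
  rintro ⟨r, hr⟩
  obtain ⟨P, hP, hPb⟩ := exists_relation_of_values (m := 2) (T := 1)
    (Q := Matrix.of ![![0, 0], ![0, 1]]) one_ne_zero (f := ![1, PowerSeries.exp ℚ])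
    (fun i => by
      fin_cases i
      · exact FA.SiegelShidlovskii.isEFunction_one
      · exact isEFunction_exp)
    (fun i => by
      rw [Fin.sum_univ_two, Polynomial.coe_one, one_mul]
      fin_cases i <;> simp [PowerSeries.derivative_exp])
    hα (by simp) (b := ![r, -1]) (by
      simp [Fin.sum_univ_two, val_one, val_exp, hr])
  rw [formSeries, Fin.sum_univ_two] at hP
  simp only [Matrix.cons_val_zero, Matrix.cons_val_one, mul_one] at hP
  have h1 := hPb 1
  rw [(exp_independent hP).2] at h1
  simp at h1

end FA.AndreEFunctions
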